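import Fermat.Agent.F3.FrobDensityLite
import Fermat.Agent.MU.Lib.FrobDensity.Final

section MergeWrap_F3_FrobDensityLiteFinal -- from F3/FrobDensityLiteFinal.lean

set_option autoImplicit false

namespace Fermat.Agent.F3

theorem frobDensityStatement : FrobDensityStatement := by
  intro L _ _ g S
  exact Fermat.Agent.FrobDensity.frobenius_density L g S

/-- (IF-0) F2-lite holds. -/
theorem frobDensityLite : FrobDensityLite :=
  frobDensityLite_of frobDensityStatement

end Fermat.Agent.F3
end MergeWrap_F3_FrobDensityLiteFinal
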