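import Mathlib
import Fermat.Agent.F3.Interfaces
import Fermat.Agent.F3.EigenChar.Defs
import Fermat.Agent.F3.EigenReduction

section MergeWrap_F3_BaseChangeInj -- from F3/BaseChangeInj.lean

set_option autoImplicit false

noncomputable section

open TensorProduct

namespace Fermat.Agent.F3Glue

variable {p : ℕ} [Fact p.Prime] {M X : Type*} [AddCommGroup M] [AddCommGroup X]

theorem exists_dual_functionals_aux [Module (ZMod p) X] {ι : Type*} [Fintype ι] [DecidableEq ι]
    (b : Module.Basis ι ℤ M) (κ : M →ₗ[ℤ] X)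
    (hker : ∀ c : M, κ c = 0 → ∃ c' : M, c = p • c') :
    ∃ lam : ι → (X →ₗ[ZMod p] ZMod p), ∀ i j, lam j (κ (b i)) = if i = j then 1 else 0 := by
  classical
  let f : (ι → ZMod p) →ₗ[ZMod p] X := Fintype.linearCombination (ZMod p) (fun i => κ (b i))
  have hfa : ∀ a : ι → ZMod p, f a = ∑ i, a i • κ (b i) := fun a =>
    Fintype.linearCombination_apply (ZMod p) _ a
  have hf : LinearMap.ker f = ⊥ := by
    rw [LinearMap.ker_eq_bot']
    intro a ha
    have h1 : κ (∑ i, ((a i).cast : ℤ) • b i) = 0 := by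
      rw [map_sum]
      rw [hfa] at ha
      rw [← ha]
      refine Finset.sum_congr rfl fun i _ => ?_
      rw [map_smul, ← Int.cast_smul_eq_zsmul (ZMod p), ZMod.intCast_cast, ZMod.cast_id', id]
    obtain ⟨c', hc'⟩ := hker _ h1
    funext i
    have h2 := congrArg (fun m => b.repr m i) hc'
    simp only [map_sum, map_smul, Finsupp.coe_finsetSum, Finset.sum_apply,
      Finsupp.coe_smul, Pi.smul_apply, Module.Basis.repr_self, smul_eq_mul,
      Finsupp.single_apply, mul_ite, mul_one, mul_zero, Finset.sum_ite_eq', Finset.mem_univ,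
      if_true, map_nsmul, nsmul_eq_mul] at h2
    have h3 : ((((a i).cast : ℤ)) : ZMod p) = 0 := by
      rw [h2]; push_cast; simp
    rw [ZMod.intCast_cast, ZMod.cast_id', id] at h3
    simpa using h3
  obtain ⟨g, hg⟩ := LinearMap.exists_leftInverse_of_injective f hf
  refine ⟨fun j => (LinearMap.proj j : (ι → ZMod p) →ₗ[ZMod p] ZMod p).comp g, fun i j => ?_⟩
  have h4 : f (Pi.single i 1) = κ (b i) := by
    rw [hfa, Finset.sum_eq_single i]
    · simp
    · intro k _ hk
      simp [Pi.single_eq_of_ne hk]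
    · intro h; exact absurd (Finset.mem_univ i) h
  have h5 : g (κ (b i)) = Pi.single i 1 := by
    rw [← h4]
    exact congrArg (fun φ => φ (Pi.single i 1)) hg
  show (g (κ (b i))) j = _
  rw [h5]
  by_cases hij : i = j
  · subst hij; simp
  · simp [hij, Ne.symm hij]

/-- dual functionals: if `κ` has kernel `p M`, `X` is killed by `p` and `b` is a `ℤ`-basis of `M`,
there are additive functionals `λ j : X → ZMod p` with `λ j (κ (b i)) = δ_ij`. -/
theorem exists_dual_functionals {ι : Type*} [Fintype ι] [DecidableEq ι]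
    (b : Module.Basis ι ℤ M) (κ : M →ₗ[ℤ] X) (hX : ∀ x : X, p • x = 0)
    (hker : ∀ c : M, κ c = 0 → ∃ c' : M, c = p • c') :
    ∃ lam : ι → (X →+ ZMod p), ∀ i j, lam j (κ (b i)) = if i = j then 1 else 0 := by
  letI : Module (ZMod p) X := AddCommGroup.zmodModule hX
  obtain ⟨lam, h⟩ := exists_dual_functionals_aux (p := p) b κ hker
  exact ⟨fun j => (lam j).toAddMonoidHom, h⟩

/-- **Injectivity after base change.**  `M` finite free over `ℤ`, `X` killed by `p`,
`κ : M → X` with kernel `p M`, `K` a field of characteristic `p`: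
`K ⊗ κ : K ⊗[ℤ] M → K ⊗[ℤ] X` is injective. -/
theorem baseChange_injective_of_ker (K : Type*) [Field K] [CharP K p]
    [Module.Free ℤ M] [Module.Finite ℤ M]
    (κ : M →ₗ[ℤ] X) (hX : ∀ x : X, p • x = 0)
    (hker : ∀ c : M, κ c = 0 → ∃ c' : M, c = p • c') :
    Function.Injective (κ.baseChange K : K ⊗[ℤ] M →ₗ[K] K ⊗[ℤ] X) := by
  classical
  let b := Module.Free.chooseBasis ℤ M
  obtain ⟨lam, hlam⟩ := exists_dual_functionals (p := p) b κ hX hker
  let bK := b.baseChange K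
  rw [← LinearMap.ker_eq_bot, LinearMap.ker_eq_bot']
  intro x hx
  -- the functionals `Λ j : K ⊗ X → K`
  let lamK : Module.Free.ChooseBasisIndex ℤ M → (X →ₗ[ℤ] K) := fun j =>
    ((ZMod.castHom (dvd_refl p) K).toAddMonoidHom.comp (lam j)).toIntLinearMap
  have hΛ : ∀ i j, LinearMap.liftBaseChange K (lamK j) (κ.baseChange K (bK i))
      = if i = j then 1 else 0 := by
    intro i j
    have h1 : bK i = (1 : K) ⊗ₜ[ℤ] b i := Module.Basis.baseChange_apply K b i
    rw [h1, LinearMap.baseChange_tmul, LinearMap.liftBaseChange_tmul, one_smul]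
    show (ZMod.castHom (dvd_refl p) K) (lam j (κ (b i))) = _
    rw [hlam i j]
    split_ifs <;> simp
  have hx' : x = ∑ i, bK.repr x i • bK i := (bK.sum_repr x).symm
  have hzero : ∀ j, bK.repr x j = 0 := by
    intro j
    have h2 := congrArg (fun y => LinearMap.liftBaseChange K (lamK j) (κ.baseChange K y)) hx'
    simp only [map_sum, map_smul, hΛ, smul_eq_mul, mul_ite, mul_one, mul_zero,
      Finset.sum_ite_eq', Finset.mem_univ, if_true] at h2
    rw [hx] at h2
    simpa using h2.symm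
  rw [hx']
  simp [hzero]

end Fermat.Agent.F3Glue
end
end MergeWrap_F3_BaseChangeInj

section MergeWrap_F3_EigenclassGlue -- from F3/EigenclassGlue.lean

set_option autoImplicit false

noncomputable section

namespace Fermat.Agent.F3

open ModularCurve AlgebraicCurve Fermat.Agent.F3EC
open scoped TensorProduct

/-- (A5) For every normalised eigenform `g` of level `N` there are algebraic integers `a ℓ`
(`= a_ℓ(g)` for `ℓ ∤ N`) and a nonzero `v ∈ ℂ ⊗ HomPar N` with `T_ℓ v = a_ℓ v` for all `ℓ ∤ N`. -/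
def PeriodEigen (N : ℕ) : Prop :=
  ∀ (g : CuspForm (CongruenceSubgroup.Gamma0 N) 2), g.IsNormalizedEigenform →
    ∃ a : Nat.Primes → integralClosure ℤ ℂ,
      (∀ ℓ : Nat.Primes, ¬ (ℓ : ℕ) ∣ N → ((a ℓ : integralClosure ℤ ℂ) : ℂ) =
        ModularFormClass.qCoeff g ℓ) ∧
      ∃ v : ℂ ⊗[ℤ] HomPar N, v ≠ 0 ∧
        ∀ ℓ : Nat.Primes, ¬ (ℓ : ℕ) ∣ N → (heckeHom N ℓ).baseChange ℂ v = ((a ℓ : ℂ)) • v

/-- (A3) For every prime `p` there is a `ℤ`-linear `κ : HomPar N → J₀(N)(ℚ̄)[p]` with kernel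
`p · HomPar N`, commuting with `T_ℓ` for all primes `ℓ ∤ N p`. -/
def KappaModP (N : ℕ) [NeZero N] : Prop :=
  ∀ p : ℕ, p.Prime → ∃ κ : HomPar N →ₗ[ℤ] Jtors N p,
    (∀ c : HomPar N, κ c = 0 → ∃ c' : HomPar N, c = p • c') ∧
    ∀ ℓ : Nat.Primes, ¬ (ℓ : ℕ) ∣ N * p → ∀ c : HomPar N,
      κ (heckeHom N ℓ c) = heckeTors N p ℓ (κ c)

/-- **Glue (H).** -/
theorem eigenclassModP_of (N : ℕ) [NeZero N]
    [Module.Free ℤ (HomPar N)] [Module.Finite ℤ (HomPar N)]
    (hP : PeriodEigen N) (hκ : KappaModP N) : EigenclassModP N := by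
  intro g hg p hp K _ _ φ
  haveI : Fact p.Prime := ⟨hp⟩
  obtain ⟨a, ha, v, hv0, hv⟩ := hP g hg
  obtain ⟨κ, hker, hκT⟩ := hκ p hp
  -- reduce the eigenvector
  obtain ⟨y, hy0, hy⟩ := Fermat.Agent.F3Eig.exists_eigenvector_reduction
    (M := HomPar N) (ι := {ℓ : Nat.Primes // ¬ (ℓ : ℕ) ∣ N})
    (fun ℓ => heckeHom N ℓ.1) (fun ℓ => a ℓ.1) ⟨v, hv0, fun ℓ => hv ℓ.1 ℓ.2⟩ φ
  have hX : ∀ x : Jtors N p, p • x = 0 := by
    intro x
    have h := x.2
    rw [Submodule.mem_torsionBy_iff] at h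
    apply Subtype.ext
    rw [Submodule.coe_smul_of_tower, Submodule.coe_zero, ← h, natCast_zsmul]
  have hinj := Fermat.Agent.F3Glue.baseChange_injective_of_ker (p := p) K κ hX hker
  refine ⟨κ.baseChange K y, fun h0 => hy0 (hinj (h0.trans (map_zero _).symm)), fun ℓ hℓ => ?_⟩
  have hℓN : ¬ (ℓ : ℕ) ∣ N := fun h => hℓ (Dvd.dvd.mul_right h p)
  refine ⟨a ℓ, ha ℓ hℓN, ?_⟩
  have hcomm : (heckeTors N p ℓ).baseChange K ∘ₗ κ.baseChange K
      = κ.baseChange K ∘ₗ (heckeHom N ℓ).baseChange K := by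
    rw [← LinearMap.baseChange_comp, ← LinearMap.baseChange_comp]
    congr 1
    ext c
    exact congrArg Subtype.val (hκT ℓ hℓ c).symm
  have h1 := congrArg (fun f => f y) hcomm
  simp only [LinearMap.comp_apply] at h1
  rw [h1, hy ⟨ℓ, hℓN⟩, map_smul]

end Fermat.Agent.F3
end
end MergeWrap_F3_EigenclassGlue
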